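import Fermat.Agent.S24.Mod.LocalInt
import Fermat.Agent.S24.Mod.LocalCusp

/-!
# GAL / Genus : dictionary  places of `FN N`  <->  analytic valuations `Wat τ₀ ∘ φ_i`, `Winf ∘ φ_i`
(package GEN-1)
-/

set_option autoImplicit false

open UpperHalfPlane AlgebraicCurve Fermat.Agent.S24
open scoped MatrixGroups

namespace Fermat.Agent.GAL.Genus

/-- the analytic valuations of `LL N`. -/
def IsAnVal (N : ℕ) [NeZero N] (μ : Valuation (LL N) (WithZero (Multiplicative ℤ))) : Prop :=
  (∃ τ₀ : ℍ, μ = Wat N τ₀) ∨ μ = Winf N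

/-- `μ ∘ φ_i` is centred at the place `P`. -/
def Centred {N : ℕ} [NeZero N] (μ : Valuation (LL N) (WithZero (Multiplicative ℤ))) (i : Cos N)
    (P : Place Kb (FN N)) : Prop :=
  (μ.comap (phi N i).toRingHom).valuationSubring = P.toValuationSubring

/-- analytic valuations are trivial on the constants `ℂ`. -/
theorem IsAnVal.algebraMap_complex {N : ℕ} [NeZero N]
    {μ : Valuation (LL N) (WithZero (Multiplicative ℤ))} (hμ : IsAnVal N μ) {c : ℂ} (hc : c ≠ 0) :
    μ (algebraMap ℂ (LL N) c) = 1 := by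
  classical
  have hne : algebraMap ℂ (MerMod N) c ≠ 0 := by
    rw [Ne, map_eq_zero_iff _ (algebraMap ℂ (MerMod N)).injective]
    exact hc
  have htower : algebraMap ℂ (LL N) c
      = algebraMap (MerMod N) (LL N) (algebraMap ℂ (MerMod N) c) := rfl
  rw [htower]
  rcases hμ with ⟨τ₀, rfl⟩ | rfl
  · rw [Wat_algebraMap τ₀ _ hne]
    have h1 : evC N (algebraMap ℂ (MerMod N) c) = fun _ => c := rfl
    rw [h1, meromorphicOrderAt_const, if_neg hc]
    simp
  · rw [Winf_algebraMap _ hne]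
    have h1 : evQ N (algebraMap ℂ (MerMod N) c) = fun _ => c := rfl
    rw [h1, meromorphicOrderAt_const, if_neg hc]
    simp

/-- holomorphic functions are integral for `Wat`. -/
theorem Wat_algebraMap_le_one {N : ℕ} [NeZero N] (τ₀ : ℍ) (f : MerMod N) :
    Wat N τ₀ (algebraMap (MerMod N) (LL N) f) ≤ 1 := by
  rcases eq_or_ne f 0 with rfl | hf
  · simp
  rw [Wat_algebraMap τ₀ f hf, ← WithZero.exp_zero, WithZero.exp_le_exp]
  have h1 := (analyticAt_evC f τ₀).meromorphicOrderAt_nonneg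
  have h2 := order_evC_ne_top f hf τ₀
  obtain ⟨n, hn⟩ := WithTop.ne_top_iff_exists.mp h2
  rw [← hn] at h1 ⊢
  have h3 : (0 : ℤ) ≤ n := by exact_mod_cast h1
  simpa using h3

/-- places over finite `j`. -/
theorem exists_Wat_centred {N : ℕ} [NeZero N] (P : Place Kb (FN N)) (h : 0 ≤ P.ord (JJ N)) :
    ∃ (τ₀ : ℍ) (i : Cos N), Centred (Wat N τ₀) i P := by
  obtain ⟨c, hc | hc⟩ := FF.exists_ord_sub_pos P h
  · exact absurd (hc ▸ isAlgebraic_algebraMap c) (transcendental_JJ N)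
  obtain ⟨τ₀, hτ₀⟩ := jFun_surjective (iota c)
  refine ⟨τ₀, ?_⟩
  -- the function `j - c`
  have hev : evC N (jM N - algebraMap Kb (MerMod N) c) =
      fun z : ℂ => jFun (ofComplex z) - iota c := rfl
  have hne : jM N - algebraMap Kb (MerMod N) c ≠ 0 := by
    intro h0
    have h1 : Psi N (JJ N - algebraMap Kb (FN N) c) = 0 := by
      rw [map_sub, Psi_JJ, AlgHom.commutes, IsScalarTower.algebraMap_apply Kb (MerMod N) (LL N),
        ← map_sub, h0, map_zero]
    have h2 : JJ N - algebraMap Kb (FN N) c = 0 := by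
      rwa [map_eq_zero] at h1
    rw [h2] at hc
    simp at hc
  have han := analyticAt_evC (jM N - algebraMap Kb (MerMod N) c) τ₀
  have htop := order_evC_ne_top _ hne τ₀
  have hzero : evC N (jM N - algebraMap Kb (MerMod N) c) (τ₀ : ℂ) = 0 := by
    rw [hev]
    simp only [ofComplex_apply]
    rw [hτ₀, sub_self]
  have hlt : ∀ i, Wat N τ₀ (phi N i (JJ N - algebraMap Kb (FN N) c)) < 1 := by
    intro i
    have hphi : phi N i (JJ N - algebraMap Kb (FN N) c) =
        algebraMap (MerMod N) (LL N) (jM N - algebraMap Kb (MerMod N) c) := by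
      rw [map_sub, map_sub, phi_JJ, AlgHom.commutes,
        ← IsScalarTower.algebraMap_apply Kb (MerMod N) (LL N)]
    rw [hphi, Wat_algebraMap τ₀ _ hne, ← WithZero.exp_zero, WithZero.exp_lt_exp]
    rw [han.meromorphicOrderAt_eq] at htop ⊢
    have h0 : analyticOrderAt (evC N (jM N - algebraMap Kb (MerMod N) c)) (τ₀ : ℂ) ≠ 0 :=
      analyticOrderAt_ne_zero.mpr ⟨han, hzero⟩
    cases hn : analyticOrderAt (evC N (jM N - algebraMap Kb (MerMod N) c)) (τ₀ : ℂ) with
    | top => rw [hn] at htop; simp at htop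
    | coe n =>
      rw [hn] at h0
      have h1 : n ≠ 0 := by exact_mod_cast h0
      have h2 : 0 < n := Nat.pos_of_ne_zero h1
      simp
      exact h2
  exact FF.exists_index_of_place (K := Kb) (F := FN N)
    (FF.transcendental_sub_algebraMap (transcendental_JJ N) c) (𝓛 := LL N) (I := Cos N)
    (phi N) (phi_injective N)
    (fun i j => by rw [map_sub, map_sub, phi_JJ, phi_JJ, AlgHom.commutes, AlgHom.commutes])
    (by rw [FF.finrank_adjoin_sub_algebraMap, finrank_FN])
    (Wat N τ₀) (fun a ha => Wat_algebraMap_Kb τ₀ a ha) hlt P hc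

/-- places over `j = ∞` (cusps). -/
theorem exists_Winf_centred {N : ℕ} [NeZero N] (P : Place Kb (FN N)) (h : P.ord (JJ N) < 0) :
    ∃ i : Cos N, Centred (Winf N) i P := by
  refine FF.exists_index_of_place (K := Kb) (F := FN N) (t := (JJ N)⁻¹)
    (FF.transcendental_inv (transcendental_JJ N)) (𝓛 := LL N) (I := Cos N)
    (phi N) (phi_injective N)
    (fun i j => by rw [map_inv₀, map_inv₀, phi_JJ, phi_JJ])
    (by rw [FF.finrank_adjoin_inv, finrank_FN])
    (Winf N) (fun a ha => Winf_algebraMap_Kb a ha) (fun i => ?_) P ?_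
  · rw [Winf_phi_JJ_inv, ← WithZero.exp_zero, WithZero.exp_lt_exp]
    have : 0 < N := Nat.pos_of_ne_zero (NeZero.ne N)
    omega
  · rw [Place.ord_inv]
    omega

theorem exists_anVal_centred {N : ℕ} [NeZero N] (P : Place Kb (FN N)) :
    ∃ (μ : Valuation (LL N) (WithZero (Multiplicative ℤ))) (i : Cos N), IsAnVal N μ ∧ Centred μ i P := by
  rcases lt_or_ge (P.ord (JJ N)) 0 with h | h
  · obtain ⟨i, hi⟩ := exists_Winf_centred P h
    exact ⟨_, i, Or.inr rfl, hi⟩
  · obtain ⟨τ₀, i, hi⟩ := exists_Wat_centred P h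
    exact ⟨_, i, Or.inl ⟨τ₀, rfl⟩, hi⟩

theorem Centred.le_one_iff {N : ℕ} [NeZero N] {μ : Valuation (LL N) (WithZero (Multiplicative ℤ))}
    {i : Cos N} {P : Place Kb (FN N)} (h : Centred μ i P) (f : FN N) :
    μ (phi N i f) ≤ 1 ↔ 0 ≤ P.ord f := by
  have h1 : μ (phi N i f) ≤ 1 ↔ f ∈ P.toValuationSubring := by
    rw [← h]
    rfl
  rw [h1]
  rcases eq_or_ne f 0 with rfl | hf
  · simp
  · exact FF.mem_toValuationSubring_iff P hf

/-- comparison of orders: `μ(φ_i f) ≤ μ(φ_i g) ↔ ord_P g ≤ ord_P f`. -/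
theorem Centred.le_iff {N : ℕ} [NeZero N] {μ : Valuation (LL N) (WithZero (Multiplicative ℤ))}
    {i : Cos N} {P : Place Kb (FN N)} (h : Centred μ i P) {f g : FN N} (hf : f ≠ 0) (hg : g ≠ 0) :
    μ (phi N i f) ≤ μ (phi N i g) ↔ P.ord g ≤ P.ord f := by
  have hg' : μ (phi N i g) ≠ 0 := (Valuation.ne_zero_iff _).mpr (by rwa [Ne, map_eq_zero])
  have h1 := h.le_one_iff (f * g⁻¹)
  rw [map_mul, map_mul, map_inv₀, map_inv₀, P.ord_mul hf (inv_ne_zero hg), P.ord_inv] at h1
  rw [← div_eq_mul_inv, div_le_one₀ (zero_lt_iff.mpr hg')] at h1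
  rw [h1]
  omega

/-- `-log μ(φ_i f) = m · ord_P f` for a positive integer `m` (the index of `μ ∘ φ_i`). -/
theorem Centred.exists_mul {N : ℕ} [NeZero N] {μ : Valuation (LL N) (WithZero (Multiplicative ℤ))}
    {i : Cos N} {P : Place Kb (FN N)} (h : Centred μ i P) :
    ∃ m : ℤ, 0 < m ∧ ∀ f : FN N, f ≠ 0 → - WithZero.log (μ (phi N i f)) = m * P.ord f :=
  FF.exists_mul_ord_of_valuationSubring_eq P (μ.comap (phi N i).toRingHom) h

end Fermat.Agent.GAL.Genus
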