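import Fermat.Agent.ES.Count
import Fermat.Agent.ES.BasisCount

/-!
# GAL / Genus : `dim M_{12 s}(Γ) ≥ s [SL₂ℤ:Γ] + 1 - dim S₂(Γ)`  (package GEN-5)

`M_*(Γ)` is free over `ℂ[E₄,E₆]` on a homogeneous basis of `μ = index` forms of weights
`wt j ∈ {0,2,…,10}` (`ES.exists_HBasis`, `HBasis.isFrame`), `n₀ = 1`, `n₁₀ ≤ dim S₂`
(see the proof of `ES.index_add_two_le`), `dim M_K(Γ) = ∑_j dim M_{K - wt j}(SL₂ℤ)`
(`HBasis.finrank_MF_eq_sum`), `ES.finrank_MF_top`.
-/

set_option autoImplicit false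

open UpperHalfPlane
open scoped MatrixGroups

namespace Fermat.Agent.GAL.Genus

/-- level one dimensions in weight `12 (t+1) - w`, `w ∈ {0,2,…,10}`. -/
lemma finrank_MF_top_twelve_sub (t : ℕ) (w : ℤ)
    (hw : w = 0 ∨ w = 2 ∨ w = 4 ∨ w = 6 ∨ w = 8 ∨ w = 10) :
    Module.finrank ℂ (ES.MF ⊤ (12 * ((t + 1 : ℕ) : ℤ) - w)) + (if w = 10 then 1 else 0)
      = (t + 1) + (if w = 0 then 1 else 0) := by
  have key : ∀ c : ℕ, Even c → (12 * ((t + 1 : ℕ) : ℤ) - w) = ((12 * t + c : ℕ) : ℤ) →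
      Module.finrank ℂ (ES.MF ⊤ (12 * ((t + 1 : ℕ) : ℤ) - w))
        = if (12 * t + c) % 12 = 2 then (12 * t + c) / 12 else (12 * t + c) / 12 + 1 := by
    intro c hc h
    rw [h]
    exact ES.finrank_MF_top _ (Even.add (Even.mul_right (by decide) t) hc)
  rcases hw with h | h | h | h | h | h <;> subst h
  · rw [key 12 (by decide) (by push_cast; ring)]
    have h1 : (12 * t + 12) % 12 = 0 := by omega
    have h2 : (12 * t + 12) / 12 = t + 1 := by omega
    simp [h1, h2]
  · rw [key 10 (by decide) (by push_cast; ring)]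
    have h1 : (12 * t + 10) % 12 = 10 := by omega
    have h2 : (12 * t + 10) / 12 = t := by omega
    simp [h1, h2]
  · rw [key 8 (by decide) (by push_cast; ring)]
    have h1 : (12 * t + 8) % 12 = 8 := by omega
    have h2 : (12 * t + 8) / 12 = t := by omega
    simp [h1, h2]
  · rw [key 6 (by decide) (by push_cast; ring)]
    have h1 : (12 * t + 6) % 12 = 6 := by omega
    have h2 : (12 * t + 6) / 12 = t := by omega
    simp [h1, h2]
  · rw [key 4 (by decide) (by push_cast; ring)]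
    have h1 : (12 * t + 4) % 12 = 4 := by omega
    have h2 : (12 * t + 4) / 12 = t := by omega
    simp [h1, h2]
  · rw [key 2 (by decide) (by push_cast; ring)]
    have h1 : (12 * t + 2) % 12 = 2 := by omega
    have h2 : (12 * t + 2) / 12 = t := by omega
    simp [h1, h2]

theorem le_finrank_MF {Γ : Subgroup SL(2, ℤ)} [Γ.FiniteIndex] (hneg : (-1 : SL(2, ℤ)) ∈ Γ)
    (hsep : ES.Separates Γ) (s : ℕ) (hs : 1 ≤ s) :
    s * Γ.index + 1 ≤ Module.finrank ℂ (ES.MF Γ (12 * (s : ℤ))) + Module.finrank ℂ (ES.CF Γ 2) := by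
  classical
  obtain ⟨B⟩ := ES.exists_HBasis Γ
  obtain ⟨hB, hfin, hcard⟩ := B.isFrame hneg hsep
  let _ := Fintype.ofFinite B.J
  obtain ⟨G, hG, hG0, hGind⟩ := B.exists_dual hneg hB
  have hwt : ∀ j, B.wt j = 0 ∨ B.wt j = 2 ∨ B.wt j = 4 ∨ B.wt j = 6 ∨ B.wt j = 8 ∨
      B.wt j = 10 := by
    intro j
    have h0 := B.wt_nonneg j
    obtain ⟨m, hm⟩ := B.wt_even hneg j
    have h12 : B.wt j < 12 := by
      by_contra hcon
      have hbot := ES.CF_eq_bot_of_nonpos (Γ := Γ) (k := 12 - B.wt j) (by omega)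
      have := hG j
      rw [hbot] at this
      exact hG0 j (by simpa using this)
    omega
  have h10 : Nat.card {j // B.wt j = 10} ≤ Module.finrank ℂ (ES.CF Γ 2) := by
    have := ES.finite_CF (Γ := Γ) 2
    have hmem : ∀ j : {j // B.wt j = 10}, G j ∈ ES.CF Γ 2 := by
      intro j
      have := hG j
      rw [j.2] at this
      simpa using this
    have hli : LinearIndependent ℂ
        (fun j : {j // B.wt j = 10} => (⟨G j, hmem j⟩ : ES.CF Γ 2)) := by
      refine LinearIndependent.of_comp (ES.CF Γ 2).subtype ?_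
      exact hGind 10
    rw [Nat.card_eq_fintype_card]
    exact hli.fintype_card_le_finrank
  have h0 := B.card_wt_zero
  obtain ⟨t, rfl⟩ : ∃ t, s = t + 1 := ⟨s - 1, by omega⟩
  have hsum : ∑ j, (Module.finrank ℂ (ES.MF ⊤ (12 * ((t + 1 : ℕ) : ℤ) - B.wt j))
        + (if B.wt j = 10 then 1 else 0))
      = ∑ j : B.J, ((t + 1) + (if B.wt j = 0 then 1 else 0)) :=
    Finset.sum_congr rfl fun j _ => finrank_MF_top_twelve_sub t (B.wt j) (hwt j)
  rw [Finset.sum_add_distrib, Finset.sum_add_distrib, ← B.finrank_MF_eq_sum,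
    ← Finset.card_filter, ← Finset.card_filter, Finset.sum_const, Finset.card_univ,
    ← Fintype.card_subtype, ← Fintype.card_subtype, ← Nat.card_eq_fintype_card,
    ← Nat.card_eq_fintype_card, ← Nat.card_eq_fintype_card, h0, hcard, smul_eq_mul] at hsum
  rw [mul_comm]
  omega

end Fermat.Agent.GAL.Genus
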