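import Fermat.Agent.S24.Mod.LocalCusp
import Fermat.Agent.ES.BasisCount
import Fermat.Agent.ES.WeightTwo

/-!
# GAL / Genus : modular forms of weight `12 s` give elements `f/Δ^s` of `MerMod N`  (package GEN-4)
-/

set_option autoImplicit false

open UpperHalfPlane AlgebraicCurve Fermat.Agent.S24
open scoped MatrixGroups ModularForm

namespace Fermat.Agent.GAL.Genus

local notation "Δ" => ModularForm.discriminant

/-- the basic identity `f ∣[12 s] γ = Δ^s · (f/Δ^s) ∘ γ`. -/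
theorem forms_slash_eq (f : ℍ → ℂ) (s : ℕ) (γ : SL(2, ℤ)) (τ : ℍ) :
    (f ∣[12 * (s : ℤ)] γ) τ = Δ τ ^ s * (f (γ • τ) / Δ (γ • τ) ^ s) := by
  rw [ModularForm.SL_slash_apply, discriminant_smul]
  have hd : (denom γ τ) ≠ 0 := denom_ne_zero _ _
  have hΔ := ModularForm.discriminant_ne_zero τ
  have h1 : denom γ τ ^ (-(12 * (s : ℤ))) = ((denom γ τ ^ (12 : ℤ)) ^ s)⁻¹ := by
    rw [zpow_neg, ← zpow_natCast (denom γ τ ^ (12 : ℤ)), ← zpow_mul]
  rw [h1, mul_pow]
  have h2 : (denom γ τ ^ (12 : ℤ)) ^ s ≠ 0 := pow_ne_zero _ (zpow_ne_zero _ hd)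
  field_simp

/-- `T^N` is in every conjugate of `Γ₀(N)`. -/
theorem forms_conj_T_pow_mem (N : ℕ) (g : SL(2, ℤ)) :
    g * ModularGroup.T ^ N * g⁻¹ ∈ CongruenceSubgroup.Gamma0 N := by
  have h1 : ModularGroup.T ^ N ∈ CongruenceSubgroup.Gamma N := by
    rw [CongruenceSubgroup.Gamma_mem]
    have h3 := ModularGroup.coe_T_zpow (N : ℤ)
    rw [zpow_natCast] at h3
    simp [h3]
  have h2 : g * ModularGroup.T ^ N * g⁻¹ ∈ CongruenceSubgroup.Gamma N :=
    (CongruenceSubgroup.Gamma_normal N).conj_mem _ h1 g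
  rw [CongruenceSubgroup.Gamma_mem] at h2
  rw [CongruenceSubgroup.Gamma0_mem]
  exact h2.2.2.1

/-- all slashes of a form of level `Γ₀(N)` are nice. -/
theorem forms_isNice_slash {N : ℕ} {k : ℤ} {f : ℍ → ℂ}
    (hf : f ∈ ES.MF (CongruenceSubgroup.Gamma0 N) k) (γ : SL(2, ℤ)) :
    IsNice N (f ∣[k] γ) where
  per := ES.WeightTwo.periodic_slash hf.2.1 (forms_conj_T_pow_mem N) γ
  holo := hf.1.slash k _
  bdd := hf.2.2 γ

/-- the function `f / Δ^s`. -/
noncomputable def formsU (s : ℕ) (f : ℍ → ℂ) : ℍ → ℂ := fun τ => f τ / Δ τ ^ s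

theorem forms_isNice_mul {N : ℕ} {s : ℕ} {f : ℍ → ℂ}
    (hf : f ∈ ES.MF (CongruenceSubgroup.Gamma0 N) (12 * (s : ℤ))) (γ : SL(2, ℤ)) :
    IsNice N (fun τ => Δ τ ^ s * formsU s f (γ • τ)) := by
  have h := forms_isNice_slash hf γ
  have he : (f ∣[12 * (s : ℤ)] γ) = fun τ => Δ τ ^ s * formsU s f (γ • τ) := by
    funext τ
    exact forms_slash_eq f s γ τ
  rwa [he] at h

theorem formsU_mem {N : ℕ} {s : ℕ} {f : ℍ → ℂ}
    (hf : f ∈ ES.MF (CongruenceSubgroup.Gamma0 N) (12 * (s : ℤ))) : formsU s f ∈ MerMod N :=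
  fun γ => ⟨s, forms_isNice_mul hf γ⟩

/-- the linear map `f ↦ f/Δ^s`. -/
noncomputable def formsT (N : ℕ) (s : ℕ) :
    ES.MF (CongruenceSubgroup.Gamma0 N) (12 * (s : ℤ)) →ₗ[ℂ] MerMod N where
  toFun f := ⟨formsU s f.1, formsU_mem f.2⟩
  map_add' f g := by
    apply Subtype.ext
    funext τ
    show (f.1 τ + g.1 τ) / Δ τ ^ s = f.1 τ / Δ τ ^ s + g.1 τ / Δ τ ^ s
    rw [add_div]
  map_smul' c f := by
    apply Subtype.ext
    funext τ
    show (c * f.1 τ) / Δ τ ^ s = c * (f.1 τ / Δ τ ^ s)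
    rw [mul_div_assoc]

theorem formsT_apply (N s : ℕ) (f : ES.MF (CongruenceSubgroup.Gamma0 N) (12 * (s : ℤ))) (τ : ℍ) :
    (formsT N s f).1 τ = (f : ℍ → ℂ) τ / Δ τ ^ s := rfl

theorem formsT_injective (N s : ℕ) : Function.Injective (formsT N s) := by
  rw [injective_iff_map_eq_zero]
  intro f hf
  apply Subtype.ext
  funext τ
  have h1 : (formsT N s f).1 τ = 0 := by rw [hf]; rfl
  rw [formsT_apply, div_eq_zero_iff] at h1
  exact h1.resolve_right (pow_ne_zero _ (ModularForm.discriminant_ne_zero τ))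

theorem formsT_smul (N s : ℕ) (f : ES.MF (CongruenceSubgroup.Gamma0 N) (12 * (s : ℤ)))
    (γ : SL(2, ℤ)) (hγ : γ ∈ CongruenceSubgroup.Gamma0 N) : γ • formsT N s f = formsT N s f := by
  apply Subtype.ext
  funext τ
  rw [smul_MerMod_apply, formsT_apply, formsT_apply]
  have h1 := forms_slash_eq f.1 s γ⁻¹ τ
  rw [f.2.2.1 γ⁻¹ (inv_mem hγ)] at h1
  rw [h1, mul_div_cancel_left₀ _ (pow_ne_zero _ (ModularForm.discriminant_ne_zero τ))]

open ModularForm Filter Topology Function in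
/-- `Δ` vanishes to order `N` in `Q = q^(1/N)`. -/
theorem forms_order_cuspFunction_discriminant (N : ℕ) [NeZero N] :
    meromorphicOrderAt (UpperHalfPlane.cuspFunction N Δ) 0 = ((N : ℤ) : WithTop ℤ) := by
  have hN := LC_natCast_pos N
  have ht : Tendsto (fun z : ℂ => ofComplex (Periodic.invQParam N z)) (𝓝[≠] 0) atImInfty :=
    tendsto_comap_im_ofComplex.comp (Periodic.invQParam_tendsto hN)
  have h1 := tendsto_atImInfty_tprod_one_sub_eta_q_pow.comp ht
  have han : AnalyticAt ℂ (UpperHalfPlane.cuspFunction N Δ) 0 :=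
    (isNice_discriminant N).LC_analyticAt_cuspFunction
  have hmer : MeromorphicAt (fun z : ℂ => z ^ N) 0 := by fun_prop
  have h2 : Tendsto (UpperHalfPlane.cuspFunction N Δ * (fun z : ℂ => z ^ N)⁻¹) (𝓝[≠] 0) (𝓝 1) := by
    refine h1.congr' ?_
    filter_upwards [LC_eventually_nhdsNE_zero] with z hz
    have him := Periodic.im_invQParam_pos_of_norm_lt_one hN hz.2 hz.1
    simp only [comp_apply, Pi.mul_apply, Pi.inv_apply]
    rw [UpperHalfPlane.cuspFunction, Periodic.cuspFunction_eq_of_nonzero _ _ hz.1, comp_apply,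
      discriminant_eq_q_prod]
    have h4 : Periodic.qParam 1 ((ofComplex (Periodic.invQParam N z) : ℍ) : ℂ) = z ^ N := by
      rw [ofComplex_apply_of_im_pos him]
      have h3 : Periodic.qParam N (Periodic.invQParam N z) = z :=
        Periodic.qParam_right_inv hN.ne' hz.1
      conv_rhs => rw [← h3]
      rw [Periodic.qParam, Periodic.qParam, ← Complex.exp_nat_mul]
      congr 1
      have hNC : (N : ℂ) ≠ 0 := by exact_mod_cast NeZero.ne N
      push_cast
      field_simp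
    rw [h4]
    have hzN : z ^ N ≠ 0 := pow_ne_zero _ hz.1
    field_simp
  have h3 : meromorphicOrderAt (UpperHalfPlane.cuspFunction N Δ * (fun z : ℂ => z ^ N)⁻¹) 0 = 0 :=
    (tendsto_ne_zero_iff_meromorphicOrderAt_eq_zero (han.meromorphicAt.mul hmer.inv)).mp
      ⟨1, one_ne_zero, h2⟩
  rw [meromorphicOrderAt_mul han.meromorphicAt hmer.inv, meromorphicOrderAt_inv] at h3
  have h4 : meromorphicOrderAt (fun z : ℂ => z ^ N) 0 = (N : ℤ) := by
    have : meromorphicOrderAt ((fun z : ℂ => z) ^ N) 0 = (N : ℤ) := by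
      simpa using meromorphicOrderAt_pow_id_sub_const (𝕜 := ℂ) (x := 0) (n := N)
    exact this
  rw [h4] at h3
  cases ho : meromorphicOrderAt (UpperHalfPlane.cuspFunction N Δ) 0 with
  | top => rw [ho] at h3; simp at h3
  | coe n =>
    rw [ho] at h3
    have h5 : n + -(N : ℤ) = 0 := by exact_mod_cast h3
    have : n = (N : ℤ) := by omega
    rw [this]

open Filter Topology Function in
/-- pole bound at `i∞` for an element `h` of `MerMod N` such that `Δ^s h` is nice. -/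
theorem forms_Winf_le {N : ℕ} [NeZero N] (h : MerMod N) (s : ℕ)
    (hm : IsNice N (fun τ => Δ τ ^ s * h.1 τ)) :
    Winf N (algebraMap (MerMod N) (LL N) h) ≤ WithZero.exp ((s : ℤ) * N) := by
  by_cases h0 : h = 0
  · rw [h0, map_zero, map_zero]
    exact zero_le
  rw [Winf_algebraMap _ h0, WithZero.exp_le_exp]
  have hG : AnalyticAt ℂ (UpperHalfPlane.cuspFunction N (fun τ => Δ τ ^ s * h.1 τ)) 0 :=
    hm.LC_analyticAt_cuspFunction
  have hD : AnalyticAt ℂ (UpperHalfPlane.cuspFunction N Δ) 0 :=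
    (isNice_discriminant N).LC_analyticAt_cuspFunction
  have he : evQ N h * (UpperHalfPlane.cuspFunction N Δ) ^ s =ᶠ[𝓝[≠] 0]
      UpperHalfPlane.cuspFunction N (fun τ => Δ τ ^ s * h.1 τ) := by
    filter_upwards [self_mem_nhdsWithin] with z hz
    rw [Pi.mul_apply, Pi.pow_apply, LC_evQ_eq_div h (m := s) hz]
    have hne : UpperHalfPlane.cuspFunction N Δ z ≠ 0 := by
      rw [UpperHalfPlane.cuspFunction, Periodic.cuspFunction_eq_of_nonzero _ _ hz]
      exact ModularForm.discriminant_ne_zero _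
    rw [div_mul_cancel₀ _ (pow_ne_zero _ hne)]
  have h1 := meromorphicOrderAt_congr he
  rw [meromorphicOrderAt_mul (meromorphicAt_evQ h) (hD.meromorphicAt.pow s),
    meromorphicOrderAt_pow hD.meromorphicAt, forms_order_cuspFunction_discriminant] at h1
  have h2 : (0 : WithTop ℤ) ≤ meromorphicOrderAt
      (UpperHalfPlane.cuspFunction N (fun τ => Δ τ ^ s * h.1 τ)) 0 := hG.meromorphicOrderAt_nonneg
  rw [← h1] at h2
  cases ho : meromorphicOrderAt (evQ N h) 0 with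
  | top => exact absurd ho (order_evQ_ne_top h h0)
  | coe n =>
    rw [ho] at h2
    rw [WithTop.untop₀_coe]
    have h5 : 0 ≤ n + (s : ℤ) * (N : ℤ) := by
      have : ((0 : ℤ) : WithTop ℤ) ≤ ((n + (s : ℤ) * (N : ℤ) : ℤ) : WithTop ℤ) := by
        simpa using h2
      exact_mod_cast this
    omega

/-- `f ↦ f/Δ^s`. -/
theorem exists_toMerMod (N : ℕ) [NeZero N] (s : ℕ) :
    ∃ T : ES.MF (CongruenceSubgroup.Gamma0 N) (12 * (s : ℤ)) →ₗ[ℂ] MerMod N,
      Function.Injective T ∧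
      (∀ f τ, (T f).1 τ = (f : ℍ → ℂ) τ / Δ τ ^ s) ∧
      (∀ f, ∀ γ ∈ CongruenceSubgroup.Gamma0 N, γ • T f = T f) ∧
      (∀ f (γ : SL(2, ℤ)), Winf N (algebraMap (MerMod N) (LL N) (γ • T f))
          ≤ WithZero.exp ((s : ℤ) * N)) := by
  refine ⟨formsT N s, formsT_injective N s, formsT_apply N s, formsT_smul N s, fun f γ => ?_⟩
  exact forms_Winf_le _ s (forms_isNice_mul f.2 γ⁻¹)

theorem Winf_phi_JJ {N : ℕ} [NeZero N] (i : Cos N) :
    Winf N (phi N i (JJ N)) = WithZero.exp (N : ℤ) := by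
  have h := Winf_phi_JJ_inv i
  rw [map_inv₀, map_inv₀, WithZero.exp_neg, inv_inj] at h
  exact h

end Fermat.Agent.GAL.Genus
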