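import Fermat.Agent.S24.Mod.Degree

/-!
# GAL / Genus : `Γ₀(N)`-invariant elements of `MerMod N` lie in `ℂ · Ψ(FN N)`  (package GEN-3 = AN2)
-/

set_option autoImplicit false

open UpperHalfPlane AlgebraicCurve Fermat.Agent.S24 IntermediateField
open scoped MatrixGroups

namespace Fermat.Agent.GAL.Genus

theorem sum_embeddings_eq_trace {K F L : Type*} [Field K] [Field F] [Field L] [Algebra K F]
    [Algebra K L] [FiniteDimensional K F] [Algebra.IsSeparable K F] {I : Type*} [Fintype I]
    (ψ : I → F →ₐ[K] L) (hinj : Function.Injective ψ)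
    (hcard : Fintype.card I = Module.finrank K F) (x : F) :
    ∑ i, ψ i x = algebraMap K L (Algebra.trace K F x) := by
  classical
  let E := AlgebraicClosure L
  let ι : L →ₐ[K] E := IsScalarTower.toAlgHom K L E
  let Θ : I → (F →ₐ[K] E) := fun i => ι.comp (ψ i)
  have hΘ : Function.Injective Θ := by
    intro i j hij
    apply hinj
    ext y
    have := DFunLike.congr_fun hij y
    exact (algebraMap L E).injective this
  have hbij : Function.Bijective Θ := by
    rw [Fintype.bijective_iff_injective_and_card]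
    exact ⟨hΘ, by rw [hcard, AlgHom.card K F E]⟩
  apply (algebraMap L E).injective
  rw [← IsScalarTower.algebraMap_apply K L E, trace_eq_sum_embeddings E, map_sum]
  exact Fintype.sum_bijective Θ hbij _ _ (fun i => rfl)

theorem sum_eq_trace_aux {k F L : Type*} [Field k] [Field F] [Field L] [Algebra k F] [Algebra k L]
    [CharZero k] (J : F) [FiniteDimensional k⟮J⟯ F] {I : Type*} [Fintype I]
    (φ : I → F →ₐ[k] L) (hinj : Function.Injective φ) (hJ : ∀ i j, φ i J = φ j J)
    (hcard : Fintype.card I = Module.finrank k⟮J⟯ F) (i₀ : I) (x : F) :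
    ∑ i, φ i x = φ i₀ (algebraMap k⟮J⟯ F (Algebra.trace k⟮J⟯ F x)) := by
  have : CharZero k⟮J⟯ := charZero_of_injective_algebraMap (algebraMap k k⟮J⟯).injective
  let _ : Algebra k⟮J⟯ L := ((φ i₀).comp (k⟮J⟯).val).toRingHom.toAlgebra
  have hcomm : ∀ i (b : k⟮J⟯), φ i (algebraMap k⟮J⟯ F b) = algebraMap k⟮J⟯ L b := by
    intro i b
    have : (φ i).comp (k⟮J⟯).val = (φ i₀).comp (k⟮J⟯).val := by
      apply adjoin_algHom_ext
      intro x hx
      rw [Set.mem_singleton_iff] at hx
      subst hx
      exact hJ i i₀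
    exact DFunLike.congr_fun this b
  let ψ : I → F →ₐ[k⟮J⟯] L := fun i => { (φ i).toRingHom with commutes' := hcomm i }
  have hψ : Function.Injective ψ := by
    intro i j hij
    apply hinj
    ext x
    exact DFunLike.congr_fun hij x
  have := sum_embeddings_eq_trace ψ hψ hcard x
  rw [hcomm i₀]
  exact this

/-- trace-dual families: abstract linear algebra. -/
theorem exists_dual_families {K F L : Type*} [Field K] [Field F] [Field L] [Algebra K F]
    [FiniteDimensional K F] [Algebra.IsSeparable K F] {I : Type*} [Fintype I] [DecidableEq I]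
    (φ : I → F →+* L) (i₀ : I)
    (htr : ∀ x, ∑ i, φ i x = φ i₀ (algebraMap K F (Algebra.trace K F x)))
    (hcard : Fintype.card I = Module.finrank K F) (Hol : F → Prop)
    (hden : ∀ y, ∃ d : K, d ≠ 0 ∧ Hol (algebraMap K F d * y)) :
    ∃ β c : I → F, (∀ k, Hol (β k)) ∧
      ∀ i i', ∑ k, φ i (β k) * φ i' (c k) = if i = i' then 1 else 0 := by
  let b : Module.Basis I K F :=
    (Module.finBasis K F).reindex (Fintype.equivFinOfCardEq hcard).symm
  choose d hd hdb using fun k => hden (b k)
  let β : Module.Basis I K F := b.unitsSMul (fun k => Units.mk0 (d k) (hd k))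
  have hβ : ∀ k, Hol (β k) := by
    intro k
    have : β k = algebraMap K F (d k) * b k := by
      rw [Module.Basis.unitsSMul_apply, Units.smul_def, Units.val_mk0, Algebra.smul_def]
    rw [this]
    exact hdb k
  let c : Module.Basis I K F :=
    (Algebra.traceForm K F).dualBasis (traceForm_nondegenerate K F) β
  have hdual : ∀ k l, Algebra.trace K F (c k * β l) = if l = k then 1 else 0 := by
    intro k l
    rw [← Algebra.traceForm_apply]
    exact LinearMap.BilinForm.apply_dualBasis_left _ β k l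
  let A : Matrix I I L := fun i k => φ i (β k)
  let C : Matrix I I L := fun k i => φ i (c k)
  have hCA : C * A = 1 := by
    ext k l
    rw [Matrix.mul_apply]
    have h1 : ∀ i, C k i * A i l = φ i (c k * β l) := fun i => (map_mul _ _ _).symm
    simp_rw [h1]
    rw [htr, hdual, Matrix.one_apply]
    by_cases hkl : l = k
    · simp [hkl]
    · have : ¬ k = l := fun h => hkl h.symm
      simp [hkl, this]
  have hAC : A * C = 1 := mul_eq_one_comm.mp hCA
  refine ⟨β, c, hβ, fun i i' => ?_⟩
  have := congrFun (congrFun hAC i) i'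
  rw [Matrix.mul_apply, Matrix.one_apply] at this
  exact this

theorem exists_dual_families' {k F L : Type*} [Field k] [Field F] [Field L] [Algebra k F]
    [CharZero k] (J : F) [FiniteDimensional k⟮J⟯ F] {I : Type*} [Fintype I] [DecidableEq I]
    (φ : I → F →+* L) (i₀ : I)
    (htr : ∀ x, ∑ i, φ i x = φ i₀ (algebraMap k⟮J⟯ F (Algebra.trace k⟮J⟯ F x)))
    (hcard : Fintype.card I = Module.finrank k⟮J⟯ F) (Hol : F → Prop)
    (hden : ∀ y, ∃ d : k⟮J⟯, d ≠ 0 ∧ Hol (algebraMap k⟮J⟯ F d * y)) :
    ∃ β c : I → F, (∀ k, Hol (β k)) ∧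
      ∀ i i', ∑ k, φ i (β k) * φ i' (c k) = if i = i' then 1 else 0 := by
  have : CharZero k⟮J⟯ := charZero_of_injective_algebraMap (algebraMap k k⟮J⟯).injective
  exact exists_dual_families φ i₀ htr hcard Hol hden

theorem phi_one (N : ℕ) [NeZero N] (x : FN N) : phi N ((1 : SL(2, ℤ)) : Cos N) x = Psi N x := by
  rw [phi_mk, one_smul]

/-- trace formula: `∑_i φ_i(x) = Ψ(Tr_{FN/Kb(J)} x)`. -/
theorem sum_phi_eq_trace (N : ℕ) [NeZero N] [Fintype (Cos N)] (x : FN N) :
    ∑ i : Cos N, phi N i x
      = Psi N (algebraMap Kb⟮JJ N⟯ (FN N) (Algebra.trace Kb⟮JJ N⟯ (FN N) x)) := by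
  have := finiteDimensional_FN N
  rw [← phi_one]
  exact sum_eq_trace_aux (JJ N) (phi N) (phi_injective N) (fun i j => by rw [phi_JJ, phi_JJ])
    (by rw [finrank_FN, Nat.card_eq_fintype_card]) _ x

/-- the conjugates of an invariant function are permuted by `SL(2,ℤ)`. -/
theorem smul_conjM_of_invariant {N : ℕ} [NeZero N] (u : MerMod N)
    (hu : ∀ γ ∈ CongruenceSubgroup.Gamma0 N, γ • u = u) (γ : SL(2, ℤ)) (i : Cos N) :
    γ • conjM u i = conjM u (γ • i) := by
  have h1 : γ • i = ((γ * i.out : SL(2, ℤ)) : Cos N) := by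
    conv_lhs => rw [← QuotientGroup.out_eq' i]
    rfl
  obtain ⟨h, hh⟩ := QuotientGroup.mk_out_eq_mul (CongruenceSubgroup.Gamma0 N) (γ * i.out)
  unfold conjM
  rw [h1, hh, mul_smul, hu _ h.2, mul_smul]

theorem conjM_one_of_invariant {N : ℕ} [NeZero N] (u : MerMod N)
    (hu : ∀ γ ∈ CongruenceSubgroup.Gamma0 N, γ • u = u) :
    conjM u ((1 : SL(2, ℤ)) : Cos N) = u := by
  obtain ⟨h, hh⟩ := QuotientGroup.mk_out_eq_mul (CongruenceSubgroup.Gamma0 N) 1
  unfold conjM
  rw [hh, one_mul, hu _ h.2]

theorem aeval_jM_mul_Psi_mem (N : ℕ) [NeZero N] (P : Polynomial ℂ) (c : FN N) :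
    algebraMap (MerMod N) (LL N) (Polynomial.aeval (jM N) P) * Psi N c ∈
      Submodule.span ℂ (Set.range (Psi N)) := by
  rw [Polynomial.aeval_eq_sum_range, map_sum, Finset.sum_mul]
  refine Submodule.sum_mem _ fun a _ => ?_
  have h1 : algebraMap (MerMod N) (LL N) (P.coeff a • jM N ^ a) * Psi N c =
      P.coeff a • Psi N (JJ N ^ a * c) := by
    rw [map_mul, map_pow, Psi_JJ, Algebra.smul_def, map_mul, map_pow,
      ← IsScalarTower.algebraMap_apply ℂ (MerMod N) (LL N), Algebra.smul_def, mul_assoc]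
  rw [h1]
  exact Submodule.smul_mem _ _ (Submodule.subset_span ⟨_, rfl⟩)

/-- **Invariants.** -/
theorem mem_span_range_Psi (N : ℕ) [NeZero N] (u : MerMod N)
    (hu : ∀ γ ∈ CongruenceSubgroup.Gamma0 N, γ • u = u) :
    algebraMap (MerMod N) (LL N) u ∈ Submodule.span ℂ (Set.range (Psi N)) := by
  classical
  let _ := Fintype.ofFinite (Cos N)
  have := finiteDimensional_FN N
  have hcard : Fintype.card (Cos N) = Module.finrank Kb⟮JJ N⟯ (FN N) := by
    rw [finrank_FN, Nat.card_eq_fintype_card]
  obtain ⟨β, c, hβ, hAC⟩ := exists_dual_families' (k := Kb) (JJ N)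
    (fun i => (phi N i).toRingHom) ((1 : SL(2, ℤ)) : Cos N)
    (fun x => by
      have := sum_phi_eq_trace N x
      rw [← phi_one] at this
      exact this) hcard (fun y => y ∈ HolN N)
    (fun y => exists_denominator (JJ N) (genSet N) (HolN N) (JJ_mem_HolN N) (genSet_subset_HolN N)
      (fun z hz => (isIntegral_of_mem_HolN (genSet_subset_HolN N hz)).isAlgebraic)
      (adjoin_genSet N) y)
  have hAC' : ∀ i i', ∑ k, phi N i (β k) * phi N i' (c k) = if i = i' then 1 else 0 := hAC
  choose f hf using fun k => mem_HolN.mp (hβ k)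
  -- the invariant functions
  let R : Cos N → MerMod N := fun k => ∑ i, conjM u i * conjM (f k) i
  have hR : ∀ k (γ : SL(2, ℤ)), γ • R k = R k := by
    intro k γ
    show γ • (∑ i, conjM u i * conjM (f k) i) = ∑ i, conjM u i * conjM (f k) i
    rw [Finset.smul_sum]
    simp_rw [smul_mul', smul_conjM_of_invariant u hu, smul_conjM (hf k)]
    exact Equiv.sum_comp (MulAction.toPerm γ) (fun i : Cos N => conjM u i * conjM (f k) i)
  choose P hP using fun k => exists_polynomial_of_smul_eq (R k) (hR k)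
  -- reconstruct `u`
  have hmain : algebraMap (MerMod N) (LL N) u =
      ∑ k, algebraMap (MerMod N) (LL N) (R k) * Psi N (c k) := by
    have h1 : ∀ k, algebraMap (MerMod N) (LL N) (R k) * Psi N (c k) =
        ∑ i, algebraMap (MerMod N) (LL N) (conjM u i) *
          (phi N i (β k) * phi N ((1 : SL(2, ℤ)) : Cos N) (c k)) := by
      intro k
      show algebraMap (MerMod N) (LL N) (∑ i, conjM u i * conjM (f k) i) * Psi N (c k) = _
      rw [map_sum, Finset.sum_mul]
      refine Finset.sum_congr rfl fun i _ => ?_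
      rw [map_mul, algebraMap_conjM (hf k), mul_assoc, phi_one]
    simp_rw [h1]
    rw [Finset.sum_comm]
    simp_rw [← Finset.mul_sum, hAC']
    simp [conjM_one_of_invariant u hu]
  rw [hmain]
  refine Submodule.sum_mem _ fun k _ => ?_
  rw [hP k]
  exact aeval_jM_mul_Psi_mem N (P k) (c k)

end Fermat.Agent.GAL.Genus
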