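import Mathlib
import Fermat.Agent.S24.FF.Residue

/-!
# GAL / Genus : valuations and extension of the constant field  (package GEN-2)

`K ⊂ C` fields, `K` algebraically closed, `F/K` a function field, `φ : F → 𝓛` a `K`-embedding into a
`C`-algebra, `μ` a valuation of `𝓛` trivial on `C`, centred at a place `P` of `F`.  If the `c_k ∈ C`
are linearly independent over `K`, then `μ(∑ c_k φ(x_k)) = max μ(φ x_k)`.
Proof: divide by the `x_k` of largest `μ`; then `x_k ∈ O_P`, `x_k ≡ a_k mod 𝔪_P` with `a_k ∈ K`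
(`S24.FF.exists_ord_sub_pos`), one `a_k = 1`; `∑ c_k a_k ≠ 0` is a constant, the rest has `μ < 1`.
-/

set_option autoImplicit false

open AlgebraicCurve Fermat.Agent.S24.FF

namespace Fermat.Agent.GAL.Genus

variable {K C F 𝓛 : Type*} [Field K] [Field C] [Field F] [Field 𝓛] [Algebra K C] [Algebra K F]
  [Algebra K 𝓛] [Algebra C 𝓛] [IsScalarTower K C 𝓛]

omit [Algebra K C] [Algebra C 𝓛] [IsScalarTower K C 𝓛] [Field C] in
theorem valIndep_mem_iff (φ : F →ₐ[K] 𝓛) (μ : Valuation 𝓛 (WithZero (Multiplicative ℤ)))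
    (P : Place K F) (hP : (μ.comap φ.toRingHom).valuationSubring = P.toValuationSubring) (y : F) :
    y ∈ P.toValuationSubring ↔ μ (φ y) ≤ 1 := by
  rw [← hP, Valuation.mem_valuationSubring_iff, Valuation.comap_apply]
  rfl

omit [Algebra K C] [Algebra C 𝓛] [IsScalarTower K C 𝓛] [Field C] in
theorem valIndep_lt_one (φ : F →ₐ[K] 𝓛) (μ : Valuation 𝓛 (WithZero (Multiplicative ℤ)))
    (P : Place K F) (hP : (μ.comap φ.toRingHom).valuationSubring = P.toValuationSubring) {z : F}
    (hz : 0 < P.ord z) : μ (φ z) < 1 := by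
  have hz0 : z ≠ 0 := ne_zero_of_ord_ne_zero P hz.ne'
  have hinv : z⁻¹ ∉ P.toValuationSubring := by
    intro h
    have := ord_nonneg_of_mem P h
    rw [P.ord_inv] at this
    omega
  rw [valIndep_mem_iff φ μ P hP, map_inv₀, map_inv₀, not_le] at hinv
  have h0 : μ (φ z) ≠ 0 := (Valuation.ne_zero_iff _).2 (by simpa using hz0)
  exact (one_lt_inv₀ (zero_lt_iff.2 h0)).1 hinv

theorem forall_le_of_sum_le [IsAlgClosed K] [IsFF1 K F] (φ : F →ₐ[K] 𝓛)
    (μ : Valuation 𝓛 (WithZero (Multiplicative ℤ)))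
    (hμC : ∀ c : C, c ≠ 0 → μ (algebraMap C 𝓛 c) = 1)
    (P : Place K F) (hP : (μ.comap φ.toRingHom).valuationSubring = P.toValuationSubring)
    {ι : Type*} (s : Finset ι) (c : ι → C) (hc : LinearIndepOn K c (s : Set ι)) (x : ι → F)
    (b : WithZero (Multiplicative ℤ)) (h : μ (∑ k ∈ s, c k • φ (x k)) ≤ b) :
    ∀ k ∈ s, μ (φ (x k)) ≤ b := by
  classical
  by_contra hcon
  push Not at hcon
  obtain ⟨k₁, hk₁, hb⟩ := hcon
  obtain ⟨k₀, hk₀, hmax⟩ := Finset.exists_max_image s (fun k => μ (φ (x k))) ⟨k₁, hk₁⟩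
  have hM : b < μ (φ (x k₀)) := lt_of_lt_of_le hb (hmax k₁ hk₁)
  have hM0 : μ (φ (x k₀)) ≠ 0 := fun h0 => by
    rw [h0] at hM
    exact not_lt_zero hM
  have hφx0 : φ (x k₀) ≠ 0 := (Valuation.ne_zero_iff _).1 hM0
  have hx0 : x k₀ ≠ 0 := fun h0 => hφx0 (by rw [h0, map_zero])
  set y : ι → F := fun k => x k / x k₀ with hy
  have hy1 : ∀ k ∈ s, 0 ≤ P.ord (y k) := by
    intro k hk
    apply ord_nonneg_of_mem
    rw [valIndep_mem_iff φ μ P hP, hy]
    simp only [map_div₀]
    exact div_le_one_of_le₀ (hmax k hk) zero_le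
  have hex : ∀ k, ∃ a : K, k ∈ s → (y k = algebraMap K F a ∨ 0 < P.ord (y k - algebraMap K F a)) := by
    intro k
    by_cases hk : k ∈ s
    · obtain ⟨a, ha⟩ := exists_ord_sub_pos P (hy1 k hk)
      exact ⟨a, fun _ => ha⟩
    · exact ⟨0, fun h => absurd h hk⟩
  choose a ha using hex
  have hlt : ∀ k ∈ s, μ (φ (y k - algebraMap K F (a k))) < 1 := by
    intro k hk
    rcases ha k hk with h1 | h1
    · rw [h1, sub_self, map_zero, map_zero]
      exact zero_lt_one
    · exact valIndep_lt_one φ μ P hP h1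
  have ha0 : a k₀ ≠ 0 := by
    intro h0
    have hy0 : y k₀ = 1 := div_self hx0
    rcases ha k₀ hk₀ with h1 | h1
    · rw [hy0, h0, map_zero] at h1
      exact one_ne_zero h1
    · rw [hy0, h0, map_zero, sub_zero, P.ord_one] at h1
      exact lt_irrefl _ h1
  set γ : C := ∑ k ∈ s, a k • c k with hγ
  have hγ0 : γ ≠ 0 := by
    intro h0
    exact ha0 (linearIndepOn_finset_iff.1 hc a h0 k₀ hk₀)
  have hsplit : ∑ k ∈ s, c k • φ (y k) =
      algebraMap C 𝓛 γ + ∑ k ∈ s, c k • φ (y k - algebraMap K F (a k)) := by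
    rw [hγ, map_sum, ← Finset.sum_add_distrib]
    refine Finset.sum_congr rfl fun k _ => ?_
    rw [map_sub, smul_sub, AlgHom.commutes, Algebra.smul_def (a k) (c k), map_mul,
      ← IsScalarTower.algebraMap_apply K C 𝓛, Algebra.smul_def (c k) (algebraMap K 𝓛 (a k))]
    ring
  have hsmall : μ (∑ k ∈ s, c k • φ (y k - algebraMap K F (a k))) < 1 := by
    refine Valuation.map_sum_lt μ one_ne_zero fun k hk => ?_
    rw [Algebra.smul_def, map_mul]
    by_cases hck : c k = 0
    · rw [hck, map_zero, map_zero, zero_mul]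
      exact zero_lt_one
    · rw [hμC _ hck, one_mul]
      exact hlt k hk
  have hone : μ (∑ k ∈ s, c k • φ (y k)) = 1 := by
    rw [hsplit, Valuation.map_add_eq_of_lt_left μ (by rw [hμC γ hγ0]; exact hsmall), hμC γ hγ0]
  have hfact : ∑ k ∈ s, c k • φ (x k) = φ (x k₀) * ∑ k ∈ s, c k • φ (y k) := by
    rw [Finset.mul_sum]
    refine Finset.sum_congr rfl fun k _ => ?_
    rw [hy]
    simp only [map_div₀]
    rw [mul_smul_comm, mul_div_cancel₀ _ hφx0]
  rw [hfact, map_mul, hone, mul_one] at h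
  exact absurd hM (not_lt.2 h)

/-- every element of the `C`-span of `φ(F)` is `∑ c_k φ(x_k)` with `K`-linearly independent `c_k`. -/
theorem exists_indep_of_mem_span (φ : F →ₐ[K] 𝓛) {u : 𝓛}
    (hu : u ∈ Submodule.span C (Set.range φ)) :
    ∃ (n : ℕ) (c : Fin n → C) (x : Fin n → F), LinearIndependent K c ∧ u = ∑ k, c k • φ (x k) := by
  classical
  obtain ⟨d, rfl⟩ := (Finsupp.mem_span_range_iff_exists_finsupp).1 hu
  let W : Submodule K C := Submodule.span K (Set.range d)
  have hfin : (Set.range d).Finite := by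
    refine Set.Finite.subset ((d.support.finite_toSet.image d).insert 0) ?_
    rintro _ ⟨z, rfl⟩
    by_cases hz : z ∈ d.support
    · exact Set.mem_insert_of_mem _ ⟨z, hz, rfl⟩
    · rw [Finsupp.notMem_support_iff.1 hz]
      exact Set.mem_insert _ _
  have : Module.Finite K W := Module.Finite.span_of_finite K hfin
  let B := Module.finBasis K W
  let w : F → W := fun z => ⟨d z, Submodule.subset_span (Set.mem_range_self z)⟩
  refine ⟨Module.finrank K W, fun k => (B k : C),
    fun k => ∑ z ∈ d.support, (B.repr (w z) k) • z, ?_, ?_⟩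
  · exact B.linearIndependent.map' W.subtype (Submodule.ker_subtype W)
  · have hd : ∀ z, d z = ∑ k, (B.repr (w z) k) • (B k : C) := by
      intro z
      have h := congrArg W.subtype (B.sum_repr (w z))
      rw [map_sum] at h
      simp only [map_smul, Submodule.subtype_apply] at h
      exact h.symm
    rw [Finsupp.sum]
    calc ∑ z ∈ d.support, d z • φ z
        = ∑ z ∈ d.support, ∑ k, ((B.repr (w z) k) • (B k : C)) • φ z := by
          refine Finset.sum_congr rfl fun z _ => ?_
          conv_lhs => rw [hd z]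
          rw [Finset.sum_smul]
      _ = ∑ k, ∑ z ∈ d.support, ((B.repr (w z) k) • (B k : C)) • φ z := Finset.sum_comm
      _ = ∑ k, (B k : C) • φ (∑ z ∈ d.support, (B.repr (w z) k) • z) := by
          refine Finset.sum_congr rfl fun k _ => ?_
          rw [map_sum, Finset.smul_sum]
          refine Finset.sum_congr rfl fun z _ => ?_
          rw [map_smul, smul_assoc, smul_comm]

/-- the `C`-span of the image of a finite dimensional `K`-space. -/
theorem finrank_span_map_le (φ : F →ₐ[K] 𝓛) (L : Submodule K F) [Module.Finite K L] :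
    Module.Finite C (Submodule.span C (φ '' (L : Set F))) ∧
    Module.finrank C (Submodule.span C (φ '' (L : Set F))) ≤ Module.finrank K L := by
  classical
  let B := Module.finBasis K L
  have hspan : Submodule.span C (φ '' (L : Set F)) =
      Submodule.span C (Set.range fun k => φ (B k : F)) := by
    apply le_antisymm
    · rw [Submodule.span_le]
      rintro _ ⟨y, hy, rfl⟩
      have h1 : y = ∑ k, (B.repr ⟨y, hy⟩ k) • (B k : F) := by
        have h := congrArg L.subtype (B.sum_repr ⟨y, hy⟩)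
        rw [map_sum] at h
        simp only [map_smul, Submodule.subtype_apply] at h
        exact h.symm
      rw [h1, map_sum]
      refine Submodule.sum_mem _ fun k _ => ?_
      rw [map_smul, ← algebraMap_smul C (B.repr ⟨y, hy⟩ k) (φ (B k : F))]
      exact Submodule.smul_mem _ _ (Submodule.subset_span ⟨k, rfl⟩)
    · apply Submodule.span_mono
      rintro _ ⟨k, rfl⟩
      exact ⟨(B k : F), (B k).2, rfl⟩
  rw [hspan]
  refine ⟨Module.Finite.span_of_finite C (Set.finite_range _), ?_⟩
  have := finrank_range_le_card (R := C) (fun k => φ (B k : F))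
  simpa [Set.finrank] using this

end Fermat.Agent.GAL.Genus
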