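import Fermat.Agent.GAL.FF.Riemann
import Fermat.Agent.GAL.Genus.Dict
import Fermat.Agent.GAL.Genus.ValIndep
import Fermat.Agent.GAL.Genus.Invariant
import Fermat.Agent.GAL.Genus.Forms
import Fermat.Agent.GAL.Genus.DimForms
import Fermat.Agent.ES.Separation
import Fermat.Agent.Lib.Gamma0Cosets

/-!
# GAL / Genus : `genusFF (FN N) ≤ dim S₂(Γ₀(N))`, Riemann's inequality with `g = dim S₂`
(package GEN-6, assembly)

NO duality / residues: `ℓ(s (j)_∞) ≥ dim_ℂ M_{12 s}(Γ₀ N) ≥ s ψ(N) + 1 - dim S₂`, and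
`ℓ(D) = deg D + 1 - genusFF` for `deg D` large.
-/

set_option autoImplicit false

open UpperHalfPlane AlgebraicCurve Fermat.Agent.S24 Fermat.Agent.GAL.FF IntermediateField
open scoped MatrixGroups

namespace Fermat.Agent.GAL.Genus

theorem JJ_ne_zero (N : ℕ) : JJ N ≠ 0 := by
  intro h
  have := transcendental_JJ N
  rw [h] at this
  exact this (isAlgebraic_zero)

/-- `x ∈ L(s (j)_∞)` as soon as the analytic valuations centred at the places of `FN N` are bounded
as for `f/Δ^s`. -/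
theorem mem_L_of_centred_bounds {N : ℕ} [NeZero N] (s : ℕ) (x : FN N)
    (h1 : ∀ (τ₀ : ℍ) (i : Cos N) (P : Place Kb (FN N)), Centred (Wat N τ₀) i P →
      Wat N τ₀ (phi N i x) ≤ 1)
    (h2 : ∀ (i : Cos N) (P : Place Kb (FN N)), Centred (Winf N) i P →
      Winf N (phi N i x) ≤ WithZero.exp ((s : ℤ) * N)) :
    x ∈ riemannRochSpace (s • poleDiv Kb (JJ N)) := by
  rw [mem_riemannRochSpace_iff]
  intro P
  by_cases hx : x = 0
  · exact Or.inl hx
  refine Or.inr ?_
  have hD : (s • poleDiv Kb (JJ N)) P = (s : ℤ) * max 0 (- P.ord (JJ N)) := by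
    rw [Finsupp.smul_apply, poleDiv_apply, nsmul_eq_mul]
  rw [hD]
  rcases lt_or_ge (P.ord (JJ N)) 0 with h | h
  · obtain ⟨i, hi⟩ := exists_Winf_centred P h
    have hJs : (JJ N) ^ s ≠ 0 := pow_ne_zero _ (JJ_ne_zero N)
    have hle : Winf N (phi N i x) ≤ Winf N (phi N i ((JJ N) ^ s)) := by
      rw [map_pow, map_pow, Winf_phi_JJ, ← WithZero.exp_nsmul, nsmul_eq_mul]
      exact h2 i P hi
    have := (hi.le_iff hx hJs).1 hle
    rw [FF.ord_pow] at this
    rw [max_eq_right (by omega)]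
    linarith
  · obtain ⟨τ₀, i, hi⟩ := exists_Wat_centred P h
    have := (hi.le_one_iff x).1 (h1 τ₀ i P hi)
    rw [max_eq_left (by omega)]
    simpa using this

/-- `x ∈ L(s (j)_∞)` as soon as all analytic valuations of all conjugates are bounded as for
`f/Δ^s`. -/
theorem mem_L_of_bounds {N : ℕ} [NeZero N] (s : ℕ) (x : FN N)
    (h1 : ∀ (τ₀ : ℍ) (i : Cos N), Wat N τ₀ (phi N i x) ≤ 1)
    (h2 : ∀ i : Cos N, Winf N (phi N i x) ≤ WithZero.exp ((s : ℤ) * N)) :
    x ∈ riemannRochSpace (s • poleDiv Kb (JJ N)) :=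
  mem_L_of_centred_bounds s x (fun τ₀ i _ _ => h1 τ₀ i) (fun i _ _ => h2 i)

/-- the action of `SL(2,ℤ)` on `LL N` is `ℂ`-linear. -/
theorem smul_complex_smul {N : ℕ} [NeZero N] (γ : SL(2, ℤ)) (c : ℂ) (y : LL N) :
    γ • (c • y) = c • (γ • y) := by
  rw [Algebra.smul_def, Algebra.smul_def, smul_mul']
  congr 1
  rw [IsScalarTower.algebraMap_apply ℂ (MerMod N) (LL N), smul_algebraMap_LL]
  congr 1

theorem phi_apply_eq_smul {N : ℕ} [NeZero N] (i : Cos N) (x : FN N) :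
    phi N i x = i.out • Psi N x := rfl

/-- `f/Δ^s ∈ ℂ · Ψ(L(s (j)_∞))`. -/
theorem toMerMod_mem_span {N : ℕ} [NeZero N] (s : ℕ) (u : MerMod N)
    (hinv : ∀ γ ∈ CongruenceSubgroup.Gamma0 N, γ • u = u)
    (hinf : ∀ γ : SL(2, ℤ), Winf N (algebraMap (MerMod N) (LL N) (γ • u))
      ≤ WithZero.exp ((s : ℤ) * N)) :
    algebraMap (MerMod N) (LL N) u ∈ Submodule.span ℂ
      ((Psi N) '' (riemannRochSpace (s • poleDiv Kb (JJ N)) : Set (FN N))) := by
  obtain ⟨n, c, x, hc, hu⟩ := exists_indep_of_mem_span (C := ℂ) (Psi N) (mem_span_range_Psi N u hinv)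
  have hconj : ∀ i : Cos N, algebraMap (MerMod N) (LL N) (i.out • u)
      = ∑ k ∈ (Finset.univ : Finset (Fin n)), c k • phi N i (x k) := by
    intro i
    rw [← smul_algebraMap_LL, hu, Finset.smul_sum]
    refine Finset.sum_congr rfl fun k _ => ?_
    rw [smul_complex_smul, phi_apply_eq_smul]
  have hc' : LinearIndepOn Kb c ((Finset.univ : Finset (Fin n)) : Set (Fin n)) := by
    rw [Finset.coe_univ]
    exact linearIndepOn_univ_iff.2 hc
  have hmem : ∀ k, x k ∈ riemannRochSpace (s • poleDiv Kb (JJ N)) := by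
    intro k
    refine mem_L_of_centred_bounds s (x k) ?_ ?_
    · intro τ₀ i P hP
      refine forall_le_of_sum_le (C := ℂ) (phi N i) (Wat N τ₀)
        (fun c hc => IsAnVal.algebraMap_complex (Or.inl ⟨τ₀, rfl⟩) hc) P hP Finset.univ c hc' x 1 ?_
        k (Finset.mem_univ k)
      rw [← hconj i]
      exact Wat_algebraMap_le_one τ₀ _
    · intro i P hP
      refine forall_le_of_sum_le (C := ℂ) (phi N i) (Winf N)
        (fun c hc => IsAnVal.algebraMap_complex (Or.inr rfl) hc) P hP Finset.univ c hc' x _ ?_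
        k (Finset.mem_univ k)
      rw [← hconj i]
      exact hinf _
  rw [hu]
  refine Submodule.sum_mem _ fun k _ => Submodule.smul_mem _ _ (Submodule.subset_span ?_)
  exact ⟨x k, hmem k, rfl⟩

theorem finrank_MF_le_ell (N : ℕ) [NeZero N] (s : ℕ) :
    Module.finrank ℂ (ES.MF (CongruenceSubgroup.Gamma0 N) (12 * (s : ℤ)))
      ≤ ell (s • poleDiv Kb (JJ N)) := by
  obtain ⟨T, hT, -, hinv, hinf⟩ := exists_toMerMod N s
  obtain ⟨hfin, hle⟩ := finrank_span_map_le (C := ℂ) (Psi N)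
    (riemannRochSpace (s • poleDiv Kb (JJ N)))
  refine le_trans ?_ hle
  let A : MerMod N →ₗ[ℂ] LL N := (IsScalarTower.toAlgHom ℂ (MerMod N) (LL N)).toLinearMap
  have hA : Function.Injective A := IsFractionRing.injective (MerMod N) (LL N)
  let Φ : ES.MF (CongruenceSubgroup.Gamma0 N) (12 * (s : ℤ)) →ₗ[ℂ]
      Submodule.span ℂ ((Psi N) '' (riemannRochSpace (s • poleDiv Kb (JJ N)) : Set (FN N))) :=
    (A.comp T).codRestrict _ (fun f => toMerMod_mem_span s (T f) (hinv f) (hinf f))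
  have hΦ : Function.Injective Φ := by
    intro f g hfg
    exact hT (hA (congrArg Subtype.val hfg))
  exact LinearMap.finrank_le_finrank_of_injective hΦ

/-- **the adelic genus of `X₀(N)` is at most `dim S₂(Γ₀(N))`.** -/
theorem genusFF_FN_le (N : ℕ) [NeZero N] :
    genusFF Kb (FN N) ≤ Module.finrank ℂ (CuspForm (CongruenceSubgroup.Gamma0 N) 2) := by
  obtain ⟨c, hc⟩ := exists_degree_bound Kb (FN N)
  have hCF : Module.finrank ℂ (ES.CF (CongruenceSubgroup.Gamma0 N) 2)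
      = Module.finrank ℂ (CuspForm (CongruenceSubgroup.Gamma0 N) 2) :=
    (ES.CFequiv (CongruenceSubgroup.Gamma0 N) 2).finrank_eq.symm
  have hidx : Module.finrank Kb⟮JJ N⟯ (FN N) = (CongruenceSubgroup.Gamma0 N).index :=
    finrank_FN N
  have hpos : 0 < (CongruenceSubgroup.Gamma0 N).index :=
    Nat.pos_of_ne_zero Subgroup.FiniteIndex.index_ne_zero
  set μ := (CongruenceSubgroup.Gamma0 N).index with hμ
  set s : ℕ := c.toNat + 1 with hs
  have hdeg : Divisor.degree (s • poleDiv Kb (JJ N)) = (s : ℤ) * μ := by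
    rw [map_nsmul, degree_poleDiv (transcendental_JJ N), hidx, nsmul_eq_mul]
  have hcs : c ≤ Divisor.degree (s • poleDiv Kb (JJ N)) := by
    rw [hdeg]
    have h1 : c ≤ (s : ℤ) := by rw [hs]; push_cast; omega
    have h2 : (s : ℤ) * 1 ≤ (s : ℤ) * μ := by
      apply mul_le_mul_of_nonneg_left _ (Int.natCast_nonneg s)
      exact_mod_cast hpos
    linarith
  have h1 := (hc _ hcs).2
  rw [hdeg] at h1
  have h2 := finrank_MF_le_ell N s
  have hneg : (-1 : SL(2, ℤ)) ∈ CongruenceSubgroup.Gamma0 N := by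
    simp [CongruenceSubgroup.Gamma0_mem]
  have h3 := le_finrank_MF hneg (ES.separates_Gamma0 N) s (by omega)
  rw [hCF] at h3
  have h3' : (s : ℤ) * μ + 1 ≤ (Module.finrank ℂ (ES.MF (CongruenceSubgroup.Gamma0 N) (12 * (s : ℤ))) : ℤ)
      + (Module.finrank ℂ (CuspForm (CongruenceSubgroup.Gamma0 N) 2) : ℤ) := by
    exact_mod_cast h3
  have h2' : (Module.finrank ℂ (ES.MF (CongruenceSubgroup.Gamma0 N) (12 * (s : ℤ))) : ℤ)
      ≤ (ell (s • poleDiv Kb (JJ N)) : ℤ) := by exact_mod_cast h2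
  have : (genusFF Kb (FN N) : ℤ)
      ≤ (Module.finrank ℂ (CuspForm (CongruenceSubgroup.Gamma0 N) 2) : ℤ) := by linarith
  exact_mod_cast this

/-- **Riemann's inequality for `X₀(N)` with `g = dim S₂(Γ₀(N))`.** -/
theorem riemann_ineq_FN (N : ℕ) [NeZero N] (D : Divisor Kb (FN N)) :
    Divisor.degree D + 1 - (Module.finrank ℂ (CuspForm (CongruenceSubgroup.Gamma0 N) 2) : ℤ)
      ≤ ell D := by
  have h1 := riemann_ineq D
  have h2 : (genusFF Kb (FN N) : ℤ)
      ≤ (Module.finrank ℂ (CuspForm (CongruenceSubgroup.Gamma0 N) 2) : ℤ) := by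
    exact_mod_cast genusFF_FN_le N
  omega

end Fermat.Agent.GAL.Genus
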